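import Fermat.Agent.S26.Spec

/-!
# Row S26, block DEG: frozen second-level interface (architect helper987)

Linear systems on an integral scheme `X` are tuples of rational functions `w : ι → K(X)`
(homogeneous coordinates of a map to projective space).  No sheaves of modules are used.
Blueprint: `coord/S26.md` §2–§4, §8.  Only definitions here.
-/

set_option autoImplicit false
universe u

open CategoryTheory CategoryTheory.Limits AlgebraicGeometry NeronModelInfra GoodReductionJacobian

namespace Fermat.Agent.S26

noncomputable section

/-! ## Function fields -/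

section FF

variable {X Y : Scheme.{u}} [IsIntegral X] [IsIntegral Y]

/-- The map of function fields induced by a morphism that preserves the generic point. -/
def ffMap (φ : X ⟶ Y) (h : φ (genericPoint X) = genericPoint Y) :
    Y.functionField →+* X.functionField :=
  ((Y.presheaf.stalkCongr (.of_eq h.symm)).hom ≫ φ.stalkMap (genericPoint X)).hom

/-- The structure map `K → K(X)` of the function field of a scheme over `Spec K`. -/
def ffStr {K : Type u} [Field K] (str : X ⟶ Spec (CommRingCat.of K)) : K →+* X.functionField :=
  ((Scheme.ΓSpecIso (CommRingCat.of K)).inv ≫ str.appTop ≫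
    X.presheaf.germ ⊤ (genericPoint X) (TopologicalSpace.Opens.mem_top _)).hom

/-- The degree of `φ` on function fields: `[K(X) : φ^* K(Y)]`. -/
def ffDeg (φ : X ⟶ Y) (h : φ (genericPoint X) = genericPoint Y) : ℕ :=
  Module.finrank (ffMap φ h).fieldRange X.functionField

end FF

/-! ## Linear systems -/

namespace LS

variable {X : Scheme.{u}} [IsIntegral X] {ι ι' : Type}

/-- The fractional ideal at `x` generated by the system `w`. -/
def span (w : ι → X.functionField) (x : X) : Submodule (X.presheaf.stalk x) X.functionField :=
  Submodule.span (X.presheaf.stalk x) (Set.range w)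

/-- The member `w b` generates the system at `x` (the section `w b` does not vanish at `x`). -/
def GenAt (w : ι → X.functionField) (x : X) (b : ι) : Prop :=
  w b ≠ 0 ∧ span w x = Submodule.span (X.presheaf.stalk x) {w b}

/-- The system is base point free: it generates an invertible sheaf and its members are
sections of it without common zero. -/
def BPF (w : ι → X.functionField) : Prop := ∀ x : X, ∃ b, GenAt w x b

/-- Base point free, and the non-vanishing locus of every member is an affine open
(the associated map to projective space is finite when `X` is proper). -/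
def Good (w : ι → X.functionField) : Prop :=
  BPF w ∧ ∀ b, ∃ U : X.Opens, IsAffineOpen U ∧ ∀ x, x ∈ U ↔ GenAt w x b

/-- Two systems generate the same fractional ideal sheaf. -/
def Same (w : ι → X.functionField) (w' : ι' → X.functionField) : Prop :=
  ∀ x : X, span w x = span w' x

/-- Two systems generate isomorphic invertible sheaves. -/
def Equiv (w : ι → X.functionField) (w' : ι' → X.functionField) : Prop :=
  ∃ h : X.functionField, h ≠ 0 ∧ Same (fun i => h * w i) w'

/-- The affine coordinates `w i / w 0`, `i = 1, …, g`. -/
def ratios {g : ℕ} (w : Fin (g + 1) → X.functionField) : Fin g → X.functionField :=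
  fun i => w i.succ / w 0

variable {K : Type u} [Field K]

/-- The affine coordinates of the system are algebraically independent over `K`. -/
def Indep (str : X ⟶ Spec (CommRingCat.of K)) {g : ℕ} (w : Fin (g + 1) → X.functionField) :
    Prop :=
  ∀ p : MvPolynomial (Fin g) K, MvPolynomial.eval₂ (ffStr str) (ratios w) p = 0 → p = 0

/-- The subfield `K(w_1/w_0, …, w_g/w_0)` of `K(X)`. -/
def coordField (str : X ⟶ Spec (CommRingCat.of K)) {g : ℕ}
    (w : Fin (g + 1) → X.functionField) : Subfield X.functionField :=
  Subfield.closure (Set.range (ffStr str) ∪ Set.range (ratios w))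

/-- The degree `[K(X) : K(w_1/w_0, …, w_g/w_0)]` of the system (`0` if infinite). -/
def deg (str : X ⟶ Spec (CommRingCat.of K)) {g : ℕ} (w : Fin (g + 1) → X.functionField) : ℕ :=
  Module.finrank (coordField str w) X.functionField

end LS

/-! ## The abelian variety -/

namespace AbVar

variable {K : Type u} [Field K] (X : AbVar K)

/-- The inverse `[-1]` as a morphism of schemes. -/
def negHom : X.A ⟶ X.A := (X.law.inv X.str RelativeGroupLaw.idPoint).1

end AbVar

/-! ## The blocks -/

namespace Stmt

variable (K : Type u) [Field K] [IsAlgClosed K]

/-- SOFT S2: an abelian variety is integral. -/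
def Integral : Prop := ∀ X : AbVar K, IsIntegral X.A

/-- SOFT: `[n]` (`n` invertible) and `[-1]` preserve the generic point. -/
def Generic : Prop :=
  ∀ (X : AbVar K) [IsIntegral X.A],
    X.negHom (genericPoint X.A) = genericPoint X.A ∧
      ∀ n : ℕ, (n : K) ≠ 0 → X.nsmulHom n (genericPoint X.A) = genericPoint X.A

/-- FF2 for `[n]`: the rank of the finite etale morphism `[n]` at the generic point is the
degree of the extension of function fields. -/
def FFRank : Prop :=
  ∀ (X : AbVar K) [IsIntegral X.A] (n : ℕ), (n : K) ≠ 0 →
    IsFinite (X.nsmulHom n) → Etale (X.nsmulHom n) →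
    ∀ h : X.nsmulHom n (genericPoint X.A) = genericPoint X.A,
      (X.nsmulHom n).finrank (genericPoint X.A) = ffDeg (X.nsmulHom n) h

/-- AMPLE: a symmetric good system of `g + 1` functions with algebraically independent affine
coordinates and finite degree (a finite morphism `A → P^g` given by a symmetric line bundle). -/
def Alpha : Prop :=
  ∀ (X : AbVar K) [IsIntegral X.A]
    (hneg : X.negHom (genericPoint X.A) = genericPoint X.A),
    ∃ u : Fin (X.dim + 1) → X.A.functionField,
      LS.Good u ∧ LS.Indep X.str u ∧ 0 < LS.deg X.str u ∧
        LS.Equiv (fun i => ffMap X.negHom hneg (u i)) u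

/-- NQUAD (theorem of the cube): for a symmetric base point free system `w`,
`[n]^* w` and `w ^ (n²)` generate isomorphic invertible sheaves. -/
def NQuad : Prop :=
  ∀ (X : AbVar K) [IsIntegral X.A]
    (hneg : X.negHom (genericPoint X.A) = genericPoint X.A) (d : ℕ)
    (w : Fin (d + 1) → X.A.functionField), LS.BPF w →
    LS.Equiv (fun i => ffMap X.negHom hneg (w i)) w →
    ∀ (n : ℕ) (hn : X.nsmulHom n (genericPoint X.A) = genericPoint X.A),
      LS.Equiv (fun i => ffMap (X.nsmulHom n) hn (w i)) (fun i => w i ^ (n ^ 2))

/-- BETA: on an integral proper scheme over an algebraically closed field, two good systems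
of `g + 1` sections of the same invertible sheaf, with algebraically independent affine
coordinates, have the same degree. -/
def Beta : Prop :=
  ∀ (X : Scheme.{u}) [IsIntegral X] (str : X ⟶ Spec (CommRingCat.of K)) [IsProper str] (g : ℕ)
    (w w' : Fin (g + 1) → X.functionField), LS.Good w → LS.Good w' → LS.Same w w' →
    LS.Indep str w → LS.Indep str w' → LS.deg str w = LS.deg str w'

/-- LS3 + LS5: pull-back of a good system along a finite morphism preserving the generic
point is good, its coordinates stay independent and the degree is multiplied by the degree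
of the morphism. -/
def LSPullback : Prop :=
  ∀ (X : Scheme.{u}) [IsIntegral X] (str : X ⟶ Spec (CommRingCat.of K)) (φ : X ⟶ X)
    (_ : φ ≫ str = str) [IsFinite φ] (h : φ (genericPoint X) = genericPoint X) (g : ℕ)
    (w : Fin (g + 1) → X.functionField), LS.Good w → LS.Indep str w →
      LS.Good (fun i => ffMap φ h (w i)) ∧ LS.Indep str (fun i => ffMap φ h (w i)) ∧
        LS.deg str (fun i => ffMap φ h (w i)) = ffDeg φ h * LS.deg str w

/-- LS3 + LS4: powers of a good system. -/
def LSPow : Prop :=
  ∀ (X : Scheme.{u}) [IsIntegral X] (str : X ⟶ Spec (CommRingCat.of K)) (g : ℕ)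
    (w : Fin (g + 1) → X.functionField) (r : ℕ), 0 < r → LS.Good w → LS.Indep str w →
      LS.Good (fun i => w i ^ r) ∧ LS.Indep str (fun i => w i ^ r) ∧
        LS.deg str (fun i => w i ^ r) = r ^ g * LS.deg str w

/-- Scaling a system by a nonzero rational function changes nothing. -/
def LSScale : Prop :=
  ∀ (X : Scheme.{u}) [IsIntegral X] (str : X ⟶ Spec (CommRingCat.of K)) (g : ℕ)
    (w : Fin (g + 1) → X.functionField) (h : X.functionField), h ≠ 0 →
      (LS.Good w → LS.Good (fun i => h * w i)) ∧
      (LS.Indep str w → LS.Indep str (fun i => h * w i)) ∧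
        LS.deg str (fun i => h * w i) = LS.deg str w

end Stmt

end

end Fermat.Agent.S26
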