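import Fermat.Agent.S26.SpecDeg

/-!
# Row S26, blocks PIC / CUBE / AMPLE: frozen interface (architect helper987)

* `PicTheory` : an abstract Picard functor (abelian groups `Pic X`, pull-back homomorphisms).
  Block PIC builds the model by Čech cocycles; block CUBE proves `Stmt.Cube` for that model.
* `CDiv X` : Cartier divisors on an integral scheme as families of local generators in `K(X)`
  (an invertible fractional ideal sheaf); `CDivDict T` : the class map `CDiv X → T.Pic X`.
* `Stmt.Cube` : the theorem of the cube in functorial form (no products of schemes appear).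
Blueprint: `coord/S26.md` §5–§7.  Only definitions here.
-/

set_option autoImplicit false
universe u

open CategoryTheory CategoryTheory.Limits AlgebraicGeometry NeronModelInfra GoodReductionJacobian

namespace Fermat.Agent.S26

noncomputable section

/-- An abstract Picard functor on schemes. -/
structure PicTheory where
  /-- the Picard group -/
  Pic : Scheme.{u} → Type u
  [addCommGroup : ∀ X, AddCommGroup (Pic X)]
  /-- pull-back of classes -/
  map : ∀ {X Y : Scheme.{u}}, (X ⟶ Y) → (Pic Y →+ Pic X)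
  map_id : ∀ (X : Scheme.{u}) (c : Pic X), map (𝟙 X) c = c
  map_comp : ∀ {X Y Z : Scheme.{u}} (f : X ⟶ Y) (g : Y ⟶ Z) (c : Pic Z),
    map (f ≫ g) c = map f (map g c)

attribute [instance] PicTheory.addCommGroup

/-- Every class on the spectrum of a field is trivial. -/
def PicTheory.IsLocal (T : PicTheory.{u}) : Prop :=
  ∀ (F : Type u) [Field F], ∀ c : T.Pic (Spec (CommRingCat.of F)), c = 0

/-! ## Cartier divisors on an integral scheme -/

section CDiv

variable {X Y : Scheme.{u}} [IsIntegral X] [IsIntegral Y]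

/-- The fractional ideal `O_x · f` at `x`. -/
def LS.span1 (f : X.functionField) (x : X) : Submodule (X.presheaf.stalk x) X.functionField :=
  Submodule.span (X.presheaf.stalk x) {f}

/-- A Cartier divisor, given by a local generator of its invertible fractional ideal sheaf at
every point (`I_x = O_x · gen x`). -/
structure CDiv (X : Scheme.{u}) [IsIntegral X] where
  /-- a generator of the fractional ideal at `x` -/
  gen : X → X.functionField
  gen_ne : ∀ x, gen x ≠ 0
  loc : ∀ x, ∃ U : X.Opens, x ∈ U ∧ ∀ y ∈ U, LS.span1 (gen y) y = LS.span1 (gen x) y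

namespace CDiv

/-- Linear equivalence: the fractional ideal sheaves differ by a rational function. -/
def LinEquiv (D D' : CDiv X) : Prop :=
  ∃ h : X.functionField, h ≠ 0 ∧ ∀ x, LS.span1 (D'.gen x) x = LS.span1 (h * D.gen x) x

/-- `D''` is the product (sum of divisors) of `D` and `D'`. -/
def IsMul (D D' D'' : CDiv X) : Prop :=
  ∀ x, LS.span1 (D''.gen x) x = LS.span1 (D.gen x * D'.gen x) x

/-- `D'` is the `r`-th power of `D`. -/
def IsPow (D : CDiv X) (r : ℕ) (D' : CDiv X) : Prop :=
  ∀ x, LS.span1 (D'.gen x) x = LS.span1 (D.gen x ^ r) x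

/-- `D'` is the pull-back of `D` along `φ` (which preserves the generic point). -/
def IsPullback (φ : X ⟶ Y) (h : φ (genericPoint X) = genericPoint Y) (D : CDiv Y)
    (D' : CDiv X) : Prop :=
  ∀ x, LS.span1 (D'.gen x) x = LS.span1 (ffMap φ h (D.gen (φ x))) x

/-- `D` is the divisor of the invertible sheaf generated by the system `w`. -/
def IsOfSystem {ι : Type} (w : ι → X.functionField) (D : CDiv X) : Prop :=
  ∀ x, LS.span w x = LS.span1 (D.gen x) x

end CDiv

end CDiv

/-- The class map from Cartier divisors to the Picard functor `T`. -/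
structure CDivDict (T : PicTheory.{u}) where
  /-- the class of a Cartier divisor -/
  cl : ∀ {X : Scheme.{u}} [IsIntegral X], CDiv X → T.Pic X
  cl_eq_iff : ∀ {X : Scheme.{u}} [IsIntegral X] (D D' : CDiv X),
    cl D = cl D' ↔ CDiv.LinEquiv D D'
  cl_mul : ∀ {X : Scheme.{u}} [IsIntegral X] (D D' D'' : CDiv X),
    CDiv.IsMul D D' D'' → cl D'' = cl D + cl D'
  cl_pullback : ∀ {X Y : Scheme.{u}} [IsIntegral X] [IsIntegral Y] (φ : X ⟶ Y)
    (h : φ (genericPoint X) = genericPoint Y) (D : CDiv Y) (D' : CDiv X),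
    CDiv.IsPullback φ h D D' → cl D' = T.map φ (cl D)

/-! ## Points of an abelian variety -/

namespace AbVar

variable {K : Type u} [Field K] (X : AbVar K)

/-- The constant `S`-valued point with value the `K`-point `x`. -/
def const {S : Scheme.{u}} (s : S ⟶ Spec (CommRingCat.of K)) (x : X.Pt) :
    SchemeHomOver s X.str :=
  schemeHomOverComp s (Category.comp_id s) x

/-- Translation by a `K`-point. -/
def transl (x : X.Pt) : X.A ⟶ X.A :=
  (X.law.mul X.str RelativeGroupLaw.idPoint (X.const X.str x)).1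

/-- The inverse of a `K`-point. -/
def negPt (x : X.Pt) : X.Pt := X.law.inv (𝟙 (Spec (CommRingCat.of K))) x

end AbVar

namespace Stmt

variable (T : PicTheory.{u}) (K : Type u) [Field K] [IsAlgClosed K]

/-- **Theorem of the cube**, functorial form: for three `S`-valued points `a, b, c` of an
abelian variety and a class `M` on it,
`(a+b+c)^*M - (a+b)^*M - (a+c)^*M - (b+c)^*M + a^*M + b^*M + c^*M = 0`. -/
def Cube : Prop :=
  ∀ (X : AbVar K) {S : Scheme.{u}} (s : S ⟶ Spec (CommRingCat.of K))
    (a b c : SchemeHomOver s X.str) (M : T.Pic X.A),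
    T.map (X.law.mul s (X.law.mul s a b) c).1 M - T.map (X.law.mul s a b).1 M
      - T.map (X.law.mul s a c).1 M - T.map (X.law.mul s b c).1 M
      + T.map a.1 M + T.map b.1 M + T.map c.1 M = 0

/-- NQUAD in the Picard group: `[-1]^*M = M ⇒ [n]^*M = n² • M`. -/
def NQuadPic : Prop :=
  ∀ (X : AbVar K) (M : T.Pic X.A), T.map X.negHom M = M →
    ∀ n : ℕ, T.map (X.nsmulHom n) M = (n ^ 2) • M

/-- Theorem of the square (symmetric form) in the Picard group:
`T_x^*M + T_{-x}^*M = 2 • M`. -/
def SquarePic : Prop :=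
  ∀ (X : AbVar K) (M : T.Pic X.A) (x : X.Pt),
    T.map (X.transl x) M + T.map (X.transl (X.negPt x)) M = 2 • M

variable {T} in
/-- Output of blocks PIC + CUBE. -/
def PicCube : Prop :=
  ∃ T : PicTheory.{u}, T.IsLocal ∧ Nonempty (CDivDict T) ∧ Cube T K

/-- LS1: a base point free system has a divisor. -/
def LSDiv : Prop :=
  ∀ (X : Scheme.{u}) [IsIntegral X] (d : ℕ) (w : Fin (d + 1) → X.functionField),
    LS.BPF w → ∃ D : CDiv X, CDiv.IsOfSystem w D

/-- Pull-backs and powers of Cartier divisors exist. -/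
def CDivOps : Prop :=
  ∀ (X : Scheme.{u}) [IsIntegral X] (D : CDiv X),
    (∀ r : ℕ, ∃ D' : CDiv X, CDiv.IsPow D r D') ∧
    (∀ D' : CDiv X, ∃ D'' : CDiv X, CDiv.IsMul D D' D'') ∧
    (∀ (Y : Scheme.{u}) [IsIntegral Y] (φ : Y ⟶ X) (h : φ (genericPoint Y) = genericPoint X),
      ∃ D' : CDiv Y, CDiv.IsPullback φ h D D')

/-- Compatibility of "divisor of a system" with pull-backs and powers. -/
def LSDivOps : Prop :=
  ∀ (X : Scheme.{u}) [IsIntegral X] (d : ℕ) (w : Fin (d + 1) → X.functionField) (D : CDiv X),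
    CDiv.IsOfSystem w D →
    (∀ (r : ℕ) (D' : CDiv X), CDiv.IsPow D r D' → CDiv.IsOfSystem (fun i => w i ^ r) D') ∧
    (∀ (Y : Scheme.{u}) [IsIntegral Y] (φ : Y ⟶ X) (h : φ (genericPoint Y) = genericPoint X)
      (D' : CDiv Y), CDiv.IsPullback φ h D D' → CDiv.IsOfSystem (fun i => ffMap φ h (w i)) D')

/-- Theorem of the square for Cartier divisors (input of block AMPLE): for a divisor `D` on an
abelian variety and a `K`-point `x`, `T_x^* D + T_{-x}^* D ~ 2 D`. -/
def SquareLS : Prop :=
  ∀ (X : AbVar K) [IsIntegral X.A] (x : X.Pt)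
    (hx : X.transl x (genericPoint X.A) = genericPoint X.A)
    (hx' : X.transl (X.negPt x) (genericPoint X.A) = genericPoint X.A)
    (D D₁ D₂ D₃ D₄ : CDiv X.A), CDiv.IsPullback (X.transl x) hx D D₁ →
    CDiv.IsPullback (X.transl (X.negPt x)) hx' D D₂ → CDiv.IsMul D₁ D₂ D₃ →
    CDiv.IsPow D 2 D₄ → CDiv.LinEquiv D₃ D₄

end Stmt

end

end Fermat.Agent.S26
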