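import Fermat.Agent.S26.SpecPic

/-!
# Row S26, block CUBE: frozen interface (architect helper987)

Everything is in functorial form: `X.SPt s` = points of the abelian variety with values in a
`K`-scheme `s : S ⟶ Spec K`.  Products of `K`-schemes are `Limits.pullback` of the structure maps.
Blueprint: `coord/S26.md` §6.  Only definitions here; the formal part C2 is proved in `CubeFormal.lean`.
-/

set_option autoImplicit false
universe u

open CategoryTheory CategoryTheory.Limits AlgebraicGeometry NeronModelInfra GoodReductionJacobian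

namespace Fermat.Agent.S26

noncomputable section

/-- `K`-points of a `K`-scheme. -/
abbrev KPt {K : Type u} [Field K] {Y : Scheme.{u}} (y : Y ⟶ Spec (CommRingCat.of K)) : Type u :=
  SchemeHomOver (𝟙 (Spec (CommRingCat.of K))) y

namespace AbVar

variable {K : Type u} [Field K] (X : AbVar K) (T : PicTheory.{u})

/-- Points of the abelian variety with values in `s : S ⟶ Spec K`. -/
abbrev SPt {S : Scheme.{u}} (s : S ⟶ Spec (CommRingCat.of K)) : Type u := SchemeHomOver s X.str

/-- `Λ(b, c; P) = (b+c)^*P - b^*P - c^*P`. -/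
def lam {S : Scheme.{u}} (s : S ⟶ Spec (CommRingCat.of K)) (b c : X.SPt s) (P : T.Pic X.A) :
    T.Pic S :=
  T.map (X.law.mul s b c).1 P - T.map b.1 P - T.map c.1 P

/-- `Θ(a, b, c; M)`, the left-hand side of the theorem of the cube. -/
def theta {S : Scheme.{u}} (s : S ⟶ Spec (CommRingCat.of K)) (a b c : X.SPt s)
    (M : T.Pic X.A) : T.Pic S :=
  T.map (X.law.mul s (X.law.mul s a b) c).1 M - T.map (X.law.mul s a b).1 M
    - T.map (X.law.mul s a c).1 M - T.map (X.law.mul s b c).1 M
    + T.map a.1 M + T.map b.1 M + T.map c.1 M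

/-- `P ∈ Pic⁰`: `Λ(b, c; P) = 0` for all points `b, c`. -/
def IsPic0 (P : T.Pic X.A) : Prop :=
  ∀ (S : Scheme.{u}) (s : S ⟶ Spec (CommRingCat.of K)) (b c : X.SPt s), X.lam T s b c P = 0

/-- `x ∈ H_M`: the cube bundle of `M` vanishes on `x × A × A`. -/
def InH (M : T.Pic X.A) (x : X.Pt) : Prop :=
  ∀ (S : Scheme.{u}) (s : S ⟶ Spec (CommRingCat.of K)) (b c : X.SPt s),
    X.theta T s (X.const s x) b c M = 0

/-- A pointed smooth proper curve mapping to the abelian variety, base point to `0`. -/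
structure PtdCurve where
  /-- the curve -/
  C : Scheme.{u}
  /-- its structure map -/
  str : C ⟶ Spec (CommRingCat.of K)
  [proper : IsProper str]
  [smooth : SmoothOfRelativeDimension 1 str]
  [integral : IsIntegral C]
  /-- the map to the abelian variety -/
  ι : C ⟶ X.A
  ι_str : ι ≫ X.str = str
  /-- the base point -/
  base : KPt str
  base_zero : base.1 ≫ ι = X.zero.1

/-- The image in `A(K)` of a `K`-point of a pointed curve. -/
def PtdCurve.image {X : AbVar K} (Γ : X.PtdCurve) (p : KPt Γ.str) : X.Pt :=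
  ⟨p.1 ≫ Γ.ι, by rw [Category.assoc, Γ.ι_str, p.2]⟩

end AbVar

/-! ## Products and faces -/

section Prod

variable {K : Type u} [Field K]

/-- The structure map of `Y ×_K Z`. -/
abbrev prodStr {Y Z : Scheme.{u}} (y : Y ⟶ Spec (CommRingCat.of K))
    (z : Z ⟶ Spec (CommRingCat.of K)) : pullback y z ⟶ Spec (CommRingCat.of K) :=
  pullback.fst y z ≫ y

/-- `Z → Y ×_K Z`, `q ↦ (y₀, q)`. -/
def inr {Y Z : Scheme.{u}} (y : Y ⟶ Spec (CommRingCat.of K)) (z : Z ⟶ Spec (CommRingCat.of K))
    (y₀ : KPt y) : Z ⟶ pullback y z :=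
  pullback.lift (z ≫ y₀.1) (𝟙 Z) (by rw [Category.assoc, y₀.2, Category.comp_id, Category.id_comp])

/-- `Y → Y ×_K Z`, `p ↦ (p, z₀)`. -/
def inl {Y Z : Scheme.{u}} (y : Y ⟶ Spec (CommRingCat.of K)) (z : Z ⟶ Spec (CommRingCat.of K))
    (z₀ : KPt z) : Y ⟶ pullback y z :=
  pullback.lift (𝟙 Y) (y ≫ z₀.1) (by rw [Category.assoc, z₀.2, Category.comp_id, Category.id_comp])

theorem inr_prodStr {Y Z : Scheme.{u}} (y : Y ⟶ Spec (CommRingCat.of K))
    (z : Z ⟶ Spec (CommRingCat.of K)) (y₀ : KPt y) : inr y z y₀ ≫ prodStr y z = z := by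
  rw [inr, prodStr, pullback.lift_fst_assoc, Category.assoc, y₀.2, Category.comp_id]

theorem inl_prodStr {Y Z : Scheme.{u}} (y : Y ⟶ Spec (CommRingCat.of K))
    (z : Z ⟶ Spec (CommRingCat.of K)) (z₀ : KPt z) : inl y z z₀ ≫ prodStr y z = y := by
  rw [inl, prodStr, pullback.lift_fst_assoc, Category.id_comp]

/-- `id × f : C ×_K Z → C ×_K Z'` for `f : Z → Z'` over `K`. -/
def prodMapRight {C Z Z' : Scheme.{u}} (c : C ⟶ Spec (CommRingCat.of K))
    (z : Z ⟶ Spec (CommRingCat.of K)) (z' : Z' ⟶ Spec (CommRingCat.of K)) (f : Z ⟶ Z')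
    (hf : f ≫ z' = z) : pullback c z ⟶ pullback c z' :=
  pullback.map c z c z' (𝟙 C) f (𝟙 _) (by simp) (by simp [hf])

/-- `f × id : X' ×_K W → X ×_K W` for `f : X' → X` over `K`. -/
def prodMapLeft {X X' W : Scheme.{u}} (x : X ⟶ Spec (CommRingCat.of K))
    (x' : X' ⟶ Spec (CommRingCat.of K)) (w : W ⟶ Spec (CommRingCat.of K)) (f : X' ⟶ X)
    (hf : f ≫ x = x') : pullback x' w ⟶ pullback x w :=
  pullback.map x' w x w f (𝟙 W) (𝟙 _) (by simp [hf]) (by simp)

/-- Transport of a point along a morphism of schemes covering a morphism of bases. -/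
def pushPt {K' : Type u} [Field K'] {A A' : Scheme.{u}} {f : A ⟶ Spec (CommRingCat.of K)}
    {f' : A' ⟶ Spec (CommRingCat.of K')} {ρ : Spec (CommRingCat.of K') ⟶ Spec (CommRingCat.of K)}
    (π : A' ⟶ A) (hπ : π ≫ f = f' ≫ ρ) {S : Scheme.{u}} (s : S ⟶ Spec (CommRingCat.of K'))
    (a : SchemeHomOver s f') : SchemeHomOver (s ≫ ρ) f :=
  ⟨a.1 ≫ π, by rw [Category.assoc, hπ, ← Category.assoc, a.2]⟩

end Prod

namespace Stmt

variable (T : PicTheory.{u}) (K : Type u) [Field K] [IsAlgClosed K]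

/-- **C1, the cube for a curve.**  A class on `C × (Y × Z)` (`C` a smooth proper integral
curve, `Y`, `Z` proper geometrically integral, all pointed) which vanishes on the three faces
`c₀ × (Y × Z)`, `C × (y₀ × Z)`, `C × (Y × z₀)` vanishes. -/
def CurveCube : Prop :=
  ∀ (C : Scheme.{u}) (c : C ⟶ Spec (CommRingCat.of K)) [IsProper c]
    [SmoothOfRelativeDimension 1 c] [IsIntegral C] (c₀ : KPt c)
    (Y Z : Scheme.{u}) (y : Y ⟶ Spec (CommRingCat.of K)) (z : Z ⟶ Spec (CommRingCat.of K))
    [IsProper y] [GeometricallyIntegral y] [IsProper z] [GeometricallyIntegral z]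
    (y₀ : KPt y) (z₀ : KPt z) (N : T.Pic (pullback c (prodStr y z))),
    T.map (inr c (prodStr y z) c₀) N = 0 →
    T.map (prodMapRight c z (prodStr y z) (inr y z y₀) (inr_prodStr y z y₀)) N = 0 →
    T.map (prodMapRight c y (prodStr y z) (inl y z z₀) (inl_prodStr y z z₀)) N = 0 →
    N = 0

/-- **C4, curves generate.**  A subgroup of `A(K)` containing the images of all pointed smooth
proper curves is everything. -/
def CurvesGenerate : Prop :=
  ∀ (X : AbVar K) (H : X.Pt → Prop), H X.zero →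
    (∀ x y, H x → H y → H (X.law.mul (𝟙 _) x y)) → (∀ x, H x → H (X.negPt x)) →
    (∀ (Γ : X.PtdCurve) (p : KPt Γ.str), H (Γ.image p)) → ∀ x, H x

/-- **P4, local triviality over the base.**  A class on `X × W` (`W` proper geometrically
integral with a `K`-point) that is trivial over the members of an open cover of `X` is the
pull-back of its restriction to `X × w₀`. -/
def LocalOnBase : Prop :=
  ∀ (X W : Scheme.{u}) (x : X ⟶ Spec (CommRingCat.of K)) (w : W ⟶ Spec (CommRingCat.of K))
    [IsProper w] [GeometricallyIntegral w] (w₀ : KPt w) (N : T.Pic (pullback x w)),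
    (∀ p : X, ∃ U : X.Opens, p ∈ U ∧
      T.map (prodMapLeft x (U.ι ≫ x) w U.ι rfl) N = 0) →
    N = T.map (pullback.fst x w) (T.map (inl x w w₀) N)

/-- **P5, generic triviality.**  A class on `X × W` (`X` integral of finite type, `W` proper
geometrically integral) whose pull-back to `Spec K' × W` along a geometric generic point
`ξ : Spec K' ⟶ X` vanishes, vanishes over a nonempty open subset of `X`. -/
def GenericTrivial : Prop :=
  ∀ (X W : Scheme.{u}) (x : X ⟶ Spec (CommRingCat.of K)) (w : W ⟶ Spec (CommRingCat.of K))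
    [IsIntegral X] [LocallyOfFiniteType x] [IsProper w] [GeometricallyIntegral w]
    (N : T.Pic (pullback x w)) (K' : Type u) [Field K'] [IsAlgClosed K']
    (ξ : Spec (CommRingCat.of K') ⟶ X), (∀ p, ξ p = genericPoint X) →
    T.map (prodMapLeft x (ξ ≫ x) w ξ rfl) N = 0 →
    ∃ U : X.Opens, (U : Set X).Nonempty ∧ T.map (prodMapLeft x (U.ι ≫ x) w U.ι rfl) N = 0

/-- **BC, base change of an abelian variety** to an algebraically closed extension field. -/
def BaseChange : Prop :=
  ∀ (X : AbVar K) (K' : Type u) [Field K'] [IsAlgClosed K'] (φ : K →+* K'),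
    ∃ (X' : AbVar K') (π : X'.A ⟶ X.A)
      (hπ : π ≫ X.str = X'.str ≫ Spec.map (CommRingCat.ofHom φ)),
      IsPullback π X'.str X.str (Spec.map (CommRingCat.ofHom φ)) ∧ X'.dim = X.dim ∧
      ∀ {S : Scheme.{u}} (s : S ⟶ Spec (CommRingCat.of K')) (a b : X'.SPt s),
        (X'.law.mul s a b).1 ≫ π =
          (X.law.mul (s ≫ Spec.map (CommRingCat.ofHom φ))
            (pushPt π hπ s a) (pushPt π hπ s b)).1

end Stmt

end

end Fermat.Agent.S26
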