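import Fermat.Agent.S26.Spec

/-!
# Row S26: the statement from the two top blocks (formal)
-/

set_option autoImplicit false
universe u

open CategoryTheory CategoryTheory.Limits AlgebraicGeometry NeronModelInfra GoodReductionJacobian

namespace Fermat.Agent.S26

/-- S26 from `Stmt.Soft` and `Stmt.Deg`. -/
theorem result_of_blocks (K : Type u) [Field K] [IsAlgClosed K]
    (hSoft : Stmt.Soft K) (hDeg : Stmt.Deg K)
    {A : Scheme.{u}} (f : A ⟶ Spec (CommRingCat.of K))
    (L : RelativeGroupLaw K f) (hc : L.IsCommutative) (hA : AbelianSchemePropertyBundle K f)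
    (g : ℕ) [hg : SmoothOfRelativeDimension g f] (n : ℕ) (hn : (n : K) ≠ 0) :
    Nat.card {x : SchemeHomOver (𝟙 (Spec (CommRingCat.of K))) f //
        L.IsTorsionPoint (𝟙 (Spec (CommRingCat.of K))) n x} = n ^ (2 * g) := by
  let X : AbVar K := ⟨A, f, L, hc, hA, g, hg⟩
  obtain ⟨hfin, het, hcount⟩ := hSoft X n hn
  obtain ⟨a, ha⟩ := hDeg X n hn hfin het
  exact (hcount a).trans ha

end Fermat.Agent.S26
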