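import Fermat.Agent.S26.SpecDeg

/-!
# Row S26: `Stmt.Deg` from the second-level blocks (formal glue, architect helper987)
-/

set_option autoImplicit false
universe u

open CategoryTheory CategoryTheory.Limits AlgebraicGeometry NeronModelInfra GoodReductionJacobian

namespace Fermat.Agent.S26

/-- `Stmt.Deg` from the blocks FF, AMPLE (`Alpha`), CUBE (`NQuad`), BETA and the linear-system
calculus. -/
theorem deg_of_blocks (K : Type u) [Field K] [IsAlgClosed K]
    (hInt : Stmt.Integral K) (hGen : Stmt.Generic K) (hFF : Stmt.FFRank K)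
    (hα : Stmt.Alpha K) (hQ : Stmt.NQuad K) (hβ : Stmt.Beta K)
    (hPB : Stmt.LSPullback K) (hPow : Stmt.LSPow K) (hSc : Stmt.LSScale K) :
    Stmt.Deg K := by
  intro X n hn hfin het
  have := hInt X
  obtain ⟨hneg, hgen⟩ := hGen X
  have hη := hgen n hn
  obtain ⟨u, huG, huI, hupos, husym⟩ := hα X hneg
  have hn0 : 0 < n := Nat.pos_of_ne_zero (by rintro rfl; simp at hn)
  have := hfin
  have hover : X.nsmulHom n ≫ X.str = X.str := X.law.schemeNsmul_over n
  obtain ⟨h1G, h1I, h1d⟩ := hPB X.A X.str (X.nsmulHom n) hover hη X.dim u huG huI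
  obtain ⟨h2G, h2I, h2d⟩ := hPow X.A X.str X.dim u (n ^ 2) (by positivity) huG huI
  obtain ⟨h, hh0, hsame⟩ := hQ X hneg X.dim u huG.1 husym n hη
  obtain ⟨h3G, h3I, h3d⟩ :=
    hSc X.A X.str X.dim (fun i => ffMap (X.nsmulHom n) hη (u i)) h hh0
  have : IsProper X.str := X.bundle.proper
  have key := hβ X.A X.str X.dim _ _ (h3G h1G) h2G hsame (h3I h1I) h2I
  rw [h3d, h1d, h2d] at key
  have hdeg : ffDeg (X.nsmulHom n) hη = (n ^ 2) ^ X.dim :=
    Nat.eq_of_mul_eq_mul_right hupos key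
  refine ⟨genericPoint X.A, ?_⟩
  rw [hFF X n hn hfin het hη, hdeg, ← pow_mul]

end Fermat.Agent.S26
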