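import Fermat.Agent.S26.TopPic

/-!
# Row S26: from the Picard functor to linear systems (glue, architect helper987)

`nquad_of : PicCube → LSDiv → CDivOps → LSDivOps → Stmt.NQuad` and
`squareLS_of : PicCube → Stmt.SquareLS`.
-/

set_option autoImplicit false
universe u

open CategoryTheory CategoryTheory.Limits AlgebraicGeometry NeronModelInfra GoodReductionJacobian

namespace Fermat.Agent.S26

section Span

variable {X : Scheme.{u}} [IsIntegral X]

/-- Multiplication by a rational function, as a linear map over the local ring at `x`. -/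
noncomputable def LS.mulL (x : X) (h : X.functionField) :
    X.functionField →ₗ[X.presheaf.stalk x] X.functionField :=
  LinearMap.mulLeft (X.presheaf.stalk x) h

theorem LS.span_mul {ι : Type} (w : ι → X.functionField) (h : X.functionField) (x : X) :
    LS.span (fun i => h * w i) x = (LS.span w x).map (LS.mulL x h) := by
  rw [LS.span, LS.span, Submodule.map_span]
  congr 1
  ext f
  constructor
  · rintro ⟨i, rfl⟩
    exact ⟨w i, ⟨i, rfl⟩, rfl⟩
  · rintro ⟨_, ⟨i, rfl⟩, rfl⟩
    exact ⟨i, rfl⟩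

theorem LS.span1_mul (f h : X.functionField) (x : X) :
    LS.span1 (h * f) x = (LS.span1 f x).map (LS.mulL x h) := by
  rw [LS.span1, LS.span1, Submodule.map_span, Set.image_singleton]
  rfl

theorem LS.map_mulL_injective (x : X) {h : X.functionField} (hh : h ≠ 0) :
    Function.Injective (Submodule.map (LS.mulL x h)) :=
  Submodule.map_injective_of_injective (f := LS.mulL x h) (fun a b hab => by
    simpa [LS.mulL, hh] using hab)

end Span

variable {K : Type u} [Field K] [IsAlgClosed K]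

/-- A linear equivalence of the divisors of two systems is an equivalence of the systems. -/
theorem LS.equiv_of_linEquiv {X : Scheme.{u}} [IsIntegral X] {ι ι' : Type}
    {w : ι → X.functionField} {w' : ι' → X.functionField} {D D' : CDiv X}
    (hD : CDiv.IsOfSystem w D) (hD' : CDiv.IsOfSystem w' D') (h : CDiv.LinEquiv D D') :
    LS.Equiv w w' := by
  obtain ⟨f, hf, hff⟩ := h
  refine ⟨f, hf, fun x => ?_⟩
  rw [LS.span_mul, hD x, hD' x, hff x, LS.span1_mul]

theorem CDiv.linEquiv_of_equiv {X : Scheme.{u}} [IsIntegral X] {ι ι' : Type}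
    {w : ι → X.functionField} {w' : ι' → X.functionField} {D D' : CDiv X}
    (hD : CDiv.IsOfSystem w D) (hD' : CDiv.IsOfSystem w' D') (h : LS.Equiv w w') :
    CDiv.LinEquiv D D' := by
  obtain ⟨f, hf, hff⟩ := h
  refine ⟨f, hf, fun x => ?_⟩
  rw [LS.span1_mul, ← hD x, ← hD' x, ← LS.span_mul]
  exact (hff x).symm

/-- The class of a power. -/
theorem CDivDict.cl_pow {T : PicTheory.{u}} (dict : CDivDict T)
    (hOps : Stmt.CDivOps.{u}) {X : Scheme.{u}} [IsIntegral X] (D : CDiv X) :
    ∀ (r : ℕ) (D' : CDiv X), CDiv.IsPow D r D' → dict.cl D' = r • dict.cl D := by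
  intro r
  induction r with
  | zero =>
    intro D' h
    -- `D'` is the trivial divisor: compare with its own square
    have hmul : CDiv.IsMul D' D' D' := by
      intro x
      have h1 := h x
      simp only [pow_zero] at h1
      rw [LS.span1_mul, h1, ← LS.span1_mul, mul_one]
      exact h1.symm
    have := dict.cl_mul D' D' D' hmul
    rw [zero_smul]
    exact left_eq_add.mp this
  | succ r ih =>
    intro D' h
    obtain ⟨Dr, hDr⟩ := (hOps X D).1 r
    have hmul : CDiv.IsMul Dr D D' := by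
      intro x
      rw [h x, pow_succ, mul_comm (D.gen x ^ r), LS.span1_mul, ← hDr x, ← LS.span1_mul,
        mul_comm]
    rw [dict.cl_mul Dr D D' hmul, ih Dr hDr, succ_nsmul]

theorem nquad_of (hPC : Stmt.PicCube K) (hDiv : Stmt.LSDiv.{u}) (hOps : Stmt.CDivOps.{u})
    (hLO : Stmt.LSDivOps.{u}) : Stmt.NQuad K := by
  intro X _ hneg d w hw hsym n hn
  obtain ⟨T, hT, ⟨dict⟩, hC⟩ := hPC
  obtain ⟨D, hD⟩ := hDiv X.A d w hw
  obtain ⟨hpow, -, hpb⟩ := hOps X.A D
  obtain ⟨hLpow, hLpb⟩ := hLO X.A d w D hD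
  obtain ⟨Dneg, hDneg⟩ := hpb X.A X.negHom hneg
  obtain ⟨Dn, hDn⟩ := hpb X.A (X.nsmulHom n) hn
  obtain ⟨Dp, hDp⟩ := hpow (n ^ 2)
  have hsymD : dict.cl Dneg = dict.cl D :=
    (dict.cl_eq_iff _ _).2 (CDiv.linEquiv_of_equiv (hLpb X.A X.negHom hneg Dneg hDneg) hD hsym)
  have hM : T.map X.negHom (dict.cl D) = dict.cl D := by
    rw [← dict.cl_pullback X.negHom hneg D Dneg hDneg, hsymD]
  have h1 : dict.cl Dn = dict.cl Dp := by
    rw [dict.cl_pullback (X.nsmulHom n) hn D Dn hDn, nquadPic_of_cube hT hC X _ hM n,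
      dict.cl_pow hOps D (n ^ 2) Dp hDp]
  exact LS.equiv_of_linEquiv (hLpb X.A (X.nsmulHom n) hn Dn hDn) (hLpow (n ^ 2) Dp hDp)
    ((dict.cl_eq_iff _ _).1 h1)

theorem squareLS_of (hPC : Stmt.PicCube K) (hOps : Stmt.CDivOps.{u}) : Stmt.SquareLS K := by
  intro X _ x hx hx' D D₁ D₂ D₃ D₄ h1 h2 h3 h4
  obtain ⟨T, hT, ⟨dict⟩, hC⟩ := hPC
  rw [← dict.cl_eq_iff, dict.cl_mul D₁ D₂ D₃ h3, dict.cl_pullback _ hx D D₁ h1,
    dict.cl_pullback _ hx' D D₂ h2, dict.cl_pow hOps D 2 D₄ h4]
  exact squarePic_of_cube hT hC X (dict.cl D) x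

end Fermat.Agent.S26
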