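import Fermat.Agent.S26.SpecPic

/-!
# Row S26: formal consequences of the theorem of the cube (glue, architect helper987)

* `nquadPic_of_cube`  : `Cube ⇒ ([-1]^*M = M ⇒ [n]^*M = n² • M)`
* `squarePic_of_cube` : `Cube ⇒ T_x^*M + T_{-x}^*M = 2 • M`
* `nquad_of`, `squareLS_of` : the same for linear systems / Cartier divisors
  (`Stmt.NQuad`, `Stmt.SquareLS`).
-/

set_option autoImplicit false
universe u

open CategoryTheory CategoryTheory.Limits AlgebraicGeometry NeronModelInfra GoodReductionJacobian

namespace Fermat.Agent.S26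

variable {K : Type u} [Field K]

section Points

variable (X : AbVar K) (T : PicTheory.{u})

theorem AbVar.const_coe {S : Scheme.{u}} (s : S ⟶ Spec (CommRingCat.of K)) (x : X.Pt) :
    (X.const s x).1 = s ≫ x.1 := rfl

theorem AbVar.const_mul {S : Scheme.{u}} (s : S ⟶ Spec (CommRingCat.of K)) (x y : X.Pt) :
    X.law.mul s (X.const s x) (X.const s y) =
      X.const s (X.law.mul (𝟙 (Spec (CommRingCat.of K))) x y) :=
  (X.law.mul_natural (𝟙 _) s s (Category.comp_id s) x y).symm

theorem AbVar.const_one {S : Scheme.{u}} (s : S ⟶ Spec (CommRingCat.of K)) :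
    X.const s (X.law.one (𝟙 (Spec (CommRingCat.of K)))) = X.law.one s :=
  X.law.one_natural (𝟙 _) s s (Category.comp_id s)

variable {X T}

/-- Pull-back along a constant point kills every class. -/
theorem map_const_eq_zero (hT : T.IsLocal) {S : Scheme.{u}}
    (s : S ⟶ Spec (CommRingCat.of K)) (x : X.Pt) (M : T.Pic X.A) :
    T.map (X.const s x).1 M = 0 := by
  rw [AbVar.const_coe, T.map_comp, hT K (T.map x.1 M), map_zero]

theorem map_one_eq_zero (hT : T.IsLocal) {S : Scheme.{u}}
    (s : S ⟶ Spec (CommRingCat.of K)) (M : T.Pic X.A) :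
    T.map (X.law.one s).1 M = 0 := by
  rw [← AbVar.const_one]
  exact map_const_eq_zero hT s _ M

theorem map_idPoint (M : T.Pic X.A) :
    T.map (RelativeGroupLaw.idPoint (f := X.str)).1 M = M :=
  T.map_id _ M

end Points

section Cube

variable [IsAlgClosed K] {T : PicTheory.{u}}

/-- The recursion `[n+1]^*M = 2 [n]^*M - [n-1]^*M + M + [-1]^*M`. -/
theorem nsmul_rec (hT : T.IsLocal) (hC : Stmt.Cube T K) (X : AbVar K) (M : T.Pic X.A) (n : ℕ) :
    T.map (X.nsmulHom (n + 2)) M =
      2 • T.map (X.nsmulHom (n + 1)) M - T.map (X.nsmulHom n) M + M + T.map X.negHom M := by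
  letI := X.law.pointGroup X.str
  set i : SchemeHomOver X.str X.str := RelativeGroupLaw.idPoint with hi
  set a : SchemeHomOver X.str X.str := X.law.nsmul X.str (n + 1) i with ha
  have h1 : X.law.mul X.str (X.law.mul X.str a i) (X.law.inv X.str i) = a := by
    rw [X.law.mul_assoc, X.law.mul_inv_cancel, X.law.mul_one]
  have h2 : X.law.mul X.str a i = X.law.nsmul X.str (n + 2) i := rfl
  have h3 : X.law.mul X.str a (X.law.inv X.str i) = X.law.nsmul X.str n i := by
    rw [ha, RelativeGroupLaw.nsmul_succ, X.law.mul_assoc, X.law.mul_inv_cancel, X.law.mul_one]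
  have h4 : X.law.mul X.str i (X.law.inv X.str i) = X.law.one X.str :=
    X.law.mul_inv_cancel X.str i
  have key := hC X X.str a i (X.law.inv X.str i) M
  rw [h1, h2, h3, h4, map_one_eq_zero hT, map_idPoint] at key
  have e1 : T.map (X.law.nsmul X.str (n + 2) i).1 M = T.map (X.nsmulHom (n + 2)) M := rfl
  have e2 : T.map (X.law.nsmul X.str n i).1 M = T.map (X.nsmulHom n) M := rfl
  have e3 : T.map a.1 M = T.map (X.nsmulHom (n + 1)) M := rfl
  have e4 : T.map (X.law.inv X.str i).1 M = T.map X.negHom M := rfl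
  rw [e1, e2, e3, e4] at key
  have : T.map (X.nsmulHom (n + 2)) M =
      (T.map (X.nsmulHom (n + 1)) M - T.map (X.nsmulHom (n + 2)) M - T.map (X.nsmulHom n) M - 0
        + T.map (X.nsmulHom (n + 1)) M + M + T.map X.negHom M) + T.map (X.nsmulHom (n + 2)) M := by
    rw [key, zero_add]
  rw [this]
  abel

theorem nquadPic_of_cube (hT : T.IsLocal) (hC : Stmt.Cube T K) : Stmt.NQuadPic T K := by
  intro X M hM
  have h0 : T.map (X.nsmulHom 0) M = 0 := map_one_eq_zero hT X.str M
  have h1 : T.map (X.nsmulHom 1) M = M := by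
    have : X.law.nsmul X.str 1 RelativeGroupLaw.idPoint = RelativeGroupLaw.idPoint :=
      X.law.nsmul_one_apply X.str _
    show T.map (X.law.nsmul X.str 1 RelativeGroupLaw.idPoint).1 M = M
    rw [this]
    exact map_idPoint M
  have main : ∀ n : ℕ, T.map (X.nsmulHom n) M = ((n : ℤ) ^ 2) • M ∧
      T.map (X.nsmulHom (n + 1)) M = (((n : ℤ) + 1) ^ 2) • M := by
    intro n
    induction n with
    | zero => exact ⟨by simpa using h0, by simpa using h1⟩
    | succ n ih =>
      refine ⟨by simpa using ih.2, ?_⟩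
      rw [nsmul_rec hT hC X M n, ih.1, ih.2, hM]
      push_cast
      module
  intro n
  rw [(main n).1]
  norm_cast

theorem squarePic_of_cube (hT : T.IsLocal) (hC : Stmt.Cube T K) : Stmt.SquarePic T K := by
  intro X M x
  set i : SchemeHomOver X.str X.str := RelativeGroupLaw.idPoint with hi
  set b := X.const X.str x with hb
  set c := X.const X.str (X.negPt x) with hc
  have hbc : X.law.mul X.str b c = X.law.one X.str := by
    rw [hb, hc, AbVar.const_mul, AbVar.negPt, X.law.mul_inv_cancel, AbVar.const_one]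
  have h1 : X.law.mul X.str (X.law.mul X.str i b) c = i := by
    rw [X.law.mul_assoc, hbc, X.law.mul_one]
  have key := hC X X.str i b c M
  rw [h1, hbc, map_one_eq_zero hT, map_const_eq_zero hT, map_const_eq_zero hT,
    map_idPoint] at key
  have e1 : T.map (X.law.mul X.str i b).1 M = T.map (X.transl x) M := rfl
  have e2 : T.map (X.law.mul X.str i c).1 M = T.map (X.transl (X.negPt x)) M := rfl
  rw [e1, e2] at key
  have : T.map (X.transl x) M + T.map (X.transl (X.negPt x)) M =
      2 • M - (M - T.map (X.transl x) M - T.map (X.transl (X.negPt x)) M - 0 + M + 0 + 0) := by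
    abel
  rw [this, key, sub_zero]

end Cube

end Fermat.Agent.S26
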