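import Fermat.Agent.S26.SpecCube
import Fermat.Agent.S26.TopPic

/-!
# Row S26, block CUBE, part C2: the formal calculus (architect helper987)

For an abstract local Picard functor `T` and an abelian variety `X`:
* `theta_const`   : `Θ(x, b, c; M) = Λ(b, c; T_x^*M - M)` for a `K`-point `x`;
* `IsPic0.map_transl` : `P ∈ Pic⁰ ⇒ T_x^*P = P`;
* `inH_zero`, `inH_mul`, `inH_neg` : `H_M` is a subgroup of `A(K)`;
* `theta_mul_const` : `x ∈ H_M ⇒ Θ(a + x, b, c; M) = Θ(a, b, c; M)` (translation invariance);
* `theta_one_left` : `Θ(0, b, c; M) = 0` (faces).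
-/

set_option autoImplicit false
universe u

open CategoryTheory CategoryTheory.Limits AlgebraicGeometry NeronModelInfra GoodReductionJacobian

namespace Fermat.Agent.S26

variable {K : Type u} [Field K] {X : AbVar K} {T : PicTheory.{u}}

namespace AbVar

/-- Composition of a point with the translation by `x` is addition of the constant point. -/
theorem comp_transl {S : Scheme.{u}} (s : S ⟶ Spec (CommRingCat.of K)) (b : X.SPt s) (x : X.Pt) :
    b.1 ≫ X.transl x = (X.law.mul s b (X.const s x)).1 := by
  have h := X.law.mul_natural X.str s b.1 b.2 RelativeGroupLaw.idPoint (X.const X.str x)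
  have h1 : schemeHomOverComp b.1 b.2 (RelativeGroupLaw.idPoint (f := X.str)) = b :=
    Subtype.ext (Category.comp_id _)
  have h2 : schemeHomOverComp b.1 b.2 (X.const X.str x) = X.const s x :=
    Subtype.ext (by
      show b.1 ≫ X.str ≫ x.1 = s ≫ x.1
      rw [← Category.assoc, b.2])
  rw [h1, h2] at h
  exact congrArg Subtype.val h

theorem map_mul_const {S : Scheme.{u}} (s : S ⟶ Spec (CommRingCat.of K)) (b : X.SPt s)
    (x : X.Pt) (M : T.Pic X.A) :
    T.map (X.law.mul s b (X.const s x)).1 M = T.map b.1 (T.map (X.transl x) M) := by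
  rw [← comp_transl, T.map_comp]

theorem lam_add {S : Scheme.{u}} (s : S ⟶ Spec (CommRingCat.of K)) (b c : X.SPt s)
    (P Q : T.Pic X.A) : X.lam T s b c (P + Q) = X.lam T s b c P + X.lam T s b c Q := by
  simp only [lam, map_add]; abel

theorem lam_sub {S : Scheme.{u}} (s : S ⟶ Spec (CommRingCat.of K)) (b c : X.SPt s)
    (P Q : T.Pic X.A) : X.lam T s b c (P - Q) = X.lam T s b c P - X.lam T s b c Q := by
  simp only [lam, map_sub]; abel

theorem lam_neg {S : Scheme.{u}} (s : S ⟶ Spec (CommRingCat.of K)) (b c : X.SPt s)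
    (P : T.Pic X.A) : X.lam T s b c (-P) = -X.lam T s b c P := by
  simp only [lam, map_neg]; abel

theorem IsPic0.add {P Q : T.Pic X.A} (hP : X.IsPic0 T P) (hQ : X.IsPic0 T Q) :
    X.IsPic0 T (P + Q) := fun S s b c => by rw [lam_add, hP S s b c, hQ S s b c, add_zero]

theorem IsPic0.neg {P : T.Pic X.A} (hP : X.IsPic0 T P) : X.IsPic0 T (-P) :=
  fun S s b c => by rw [lam_neg, hP S s b c, neg_zero]

theorem isPic0_zero : X.IsPic0 T 0 := fun S s b c => by simp [lam]

/-- Classes in `Pic⁰` are translation invariant. -/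
theorem IsPic0.map_transl (hT : T.IsLocal) {P : T.Pic X.A} (hP : X.IsPic0 T P) (x : X.Pt) :
    T.map (X.transl x) P = P := by
  have h := hP X.A X.str RelativeGroupLaw.idPoint (X.const X.str x)
  rw [lam, map_const_eq_zero hT, map_idPoint, sub_zero, sub_eq_zero] at h
  exact h

/-- `Θ(x, b, c; M) = Λ(b, c; T_x^*M - M)`. -/
theorem theta_const (hT : T.IsLocal) {S : Scheme.{u}} (s : S ⟶ Spec (CommRingCat.of K))
    (x : X.Pt) (b c : X.SPt s) (M : T.Pic X.A) :
    X.theta T s (X.const s x) b c M = X.lam T s b c (T.map (X.transl x) M - M) := by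
  have e1 : X.law.mul s (X.law.mul s (X.const s x) b) c =
      X.law.mul s (X.law.mul s b c) (X.const s x) := by
    rw [X.comm s (X.const s x) b, X.law.mul_assoc s b (X.const s x) c,
      X.comm s (X.const s x) c, ← X.law.mul_assoc s b c (X.const s x)]
  rw [theta, e1, X.comm s (X.const s x) b, X.comm s (X.const s x) c, map_mul_const,
    map_mul_const, map_mul_const, map_const_eq_zero hT, lam_sub, lam, lam]
  abel

/-- The subset `H_M` contains `0`. -/
theorem inH_zero (hT : T.IsLocal) (M : T.Pic X.A) : X.InH T M X.zero := by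
  intro S s b c
  have h0 : X.const s X.zero = X.law.one s := AbVar.const_one X s
  rw [theta, h0, X.law.one_mul, X.law.one_mul, map_one_eq_zero hT]
  abel

theorem inH_iff (hT : T.IsLocal) (M : T.Pic X.A) (x : X.Pt) :
    X.InH T M x ↔ X.IsPic0 T (T.map (X.transl x) M - M) := by
  constructor
  · intro h S s b c
    rw [← theta_const hT]
    exact h S s b c
  · intro h S s b c
    rw [theta_const hT]
    exact h S s b c

/-- `T_{x·y} = T_x ∘ T_y` on classes. -/
theorem map_transl_mul (x y : X.Pt) (M : T.Pic X.A) :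
    T.map (X.transl (X.law.mul (𝟙 _) x y)) M = T.map (X.transl y) (T.map (X.transl x) M) := by
  rw [← T.map_comp]
  congr 1
  -- `transl y ≫ transl x = transl (x * y)`
  have h := comp_transl (X := X) X.str
    (X.law.mul X.str RelativeGroupLaw.idPoint (X.const X.str y)) x
  have h' : (X.law.mul X.str RelativeGroupLaw.idPoint (X.const X.str y)).1 = X.transl y := rfl
  rw [h'] at h
  rw [h, X.law.mul_assoc, X.comm X.str (X.const X.str y) (X.const X.str x), AbVar.const_mul]
  rfl

theorem inH_mul (hT : T.IsLocal) (M : T.Pic X.A) {x y : X.Pt} (hx : X.InH T M x)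
    (hy : X.InH T M y) : X.InH T M (X.law.mul (𝟙 _) x y) := by
  rw [inH_iff hT] at hx hy ⊢
  have h : T.map (X.transl (X.law.mul (𝟙 _) x y)) M - M =
      T.map (X.transl y) (T.map (X.transl x) M - M) + (T.map (X.transl y) M - M) := by
    rw [map_transl_mul, map_sub]; abel
  rw [h, hx.map_transl hT y]
  exact hx.add hy

theorem inH_neg (hT : T.IsLocal) (M : T.Pic X.A) {x : X.Pt} (hx : X.InH T M x) :
    X.InH T M (X.negPt x) := by
  rw [inH_iff hT] at hx ⊢
  -- `0 = P_{x·x⁻¹} = T_{x⁻¹}^* P_x + P_{x⁻¹}`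
  have h0 : T.map (X.transl (X.law.mul (𝟙 _) x (X.negPt x))) M = M := by
    have : X.law.mul (𝟙 _) x (X.negPt x) = X.zero := X.law.mul_inv_cancel _ x
    rw [this]
    have hz : X.transl X.zero = 𝟙 X.A := by
      show (X.law.mul X.str RelativeGroupLaw.idPoint
        (X.const X.str (X.law.one (𝟙 (Spec (CommRingCat.of K)))))).1 = 𝟙 X.A
      rw [AbVar.const_one, X.law.mul_one]
    rw [hz, T.map_id]
  have h : T.map (X.transl (X.negPt x)) M - M =
      -(T.map (X.transl (X.negPt x)) (T.map (X.transl x) M - M)) := by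
    rw [map_sub, ← map_transl_mul, h0]; abel
  rw [h, hx.map_transl hT]
  exact hx.neg

/-- Faces: `Θ(0, b, c; M) = 0`. -/
theorem theta_one_left (hT : T.IsLocal) {S : Scheme.{u}} (s : S ⟶ Spec (CommRingCat.of K))
    (b c : X.SPt s) (M : T.Pic X.A) : X.theta T s (X.law.one s) b c M = 0 := by
  rw [← AbVar.const_one]
  exact inH_zero hT M S s b c

/-- Translation invariance of the cube class in the first variable. -/
theorem theta_mul_const (hT : T.IsLocal) (M : T.Pic X.A) {x : X.Pt} (hx : X.InH T M x)
    {S : Scheme.{u}} (s : S ⟶ Spec (CommRingCat.of K)) (a b c : X.SPt s) :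
    X.theta T s (X.law.mul s a (X.const s x)) b c M = X.theta T s a b c M := by
  rw [inH_iff hT] at hx
  set P := T.map (X.transl x) M - M with hP
  have hM : T.map (X.transl x) M = M + P := by rw [hP]; abel
  have sw : ∀ p q : X.SPt s, X.law.mul s (X.law.mul s p (X.const s x)) q =
      X.law.mul s (X.law.mul s p q) (X.const s x) := by
    intro p q
    rw [X.law.mul_assoc s p (X.const s x) q, X.comm s (X.const s x) q,
      ← X.law.mul_assoc s p q (X.const s x)]
  have e2 := sw a b
  have e3 := sw a c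
  have e1 : X.law.mul s (X.law.mul s (X.law.mul s a (X.const s x)) b) c =
      X.law.mul s (X.law.mul s (X.law.mul s a b) c) (X.const s x) := by
    rw [e2, sw]
  have k1 := hx S s (X.law.mul s a b) c
  have k2 := hx S s a b
  have k3 := hx S s a c
  rw [lam] at k1 k2 k3
  rw [theta, theta, e1, e2, e3, map_mul_const, map_mul_const, map_mul_const, map_mul_const,
    hM]
  simp only [map_add]
  have k1' : T.map (X.law.mul s (X.law.mul s a b) c).1 P =
      T.map (X.law.mul s a b).1 P + T.map c.1 P := by
    rw [← sub_eq_zero, ← k1]; abel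
  have k2' : T.map (X.law.mul s a b).1 P = T.map a.1 P + T.map b.1 P := by
    rw [← sub_eq_zero, ← k2]; abel
  have k3' : T.map (X.law.mul s a c).1 P = T.map a.1 P + T.map c.1 P := by
    rw [← sub_eq_zero, ← k3]; abel
  rw [k1', k2', k3']
  abel

end AbVar

end Fermat.Agent.S26
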