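import Mathlib
import Fermat.Prelude.Def_JacJ1Iface
import Fermat.Prelude.Def_GoodReductionJacobian_RelativeGroupLawKernel

/-!
# Row S26 (torsion of abelian varieties): frozen top-level interface

Architect: helper987.  Blueprint: `coord/S26.md` (same branch).  Only definitions here.

S26 : for an abelian variety `A` of dimension `g` over an algebraically closed field `K` and
`n` invertible in `K`, `#A(K)[n] = n ^ (2 g)`.

Top split:  `Stmt.Soft` (`[n]` is finite etale and `#A(K)[n]` is its rank) and
`Stmt.Deg` (the rank of `[n]` is `n ^ (2 g)`).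
-/

set_option autoImplicit false
universe u

open CategoryTheory CategoryTheory.Limits AlgebraicGeometry NeronModelInfra GoodReductionJacobian

namespace Fermat.Agent.S26

/-- An abelian variety over `K`, bundled with exactly the hypotheses of S26. -/
structure AbVar (K : Type u) [Field K] where
  /-- the underlying scheme -/
  A : Scheme.{u}
  /-- the structure morphism -/
  str : A ⟶ Spec (CommRingCat.of K)
  /-- the group law on the functor of points -/
  law : RelativeGroupLaw K str
  comm : law.IsCommutative
  bundle : AbelianSchemePropertyBundle K str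
  /-- the dimension `g` -/
  dim : ℕ
  smoothDim : SmoothOfRelativeDimension dim str

namespace AbVar

variable {K : Type u} [Field K] (X : AbVar K)

/-- Multiplication by `n` as a morphism of schemes. -/
noncomputable def nsmulHom (n : ℕ) : X.A ⟶ X.A := X.law.schemeNsmul n

/-- The `K`-points of `A`. -/
abbrev Pt : Type u := SchemeHomOver (𝟙 (Spec (CommRingCat.of K))) X.str

/-- The zero point. -/
noncomputable def zero : X.Pt := X.law.one (𝟙 (Spec (CommRingCat.of K)))

/-- The `n`-torsion `K`-points (the set counted by S26). -/
abbrev Torsion (n : ℕ) : Type u :=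
  {x : X.Pt // X.law.IsTorsionPoint (𝟙 (Spec (CommRingCat.of K))) n x}

end AbVar

namespace Stmt

variable (K : Type u) [Field K] [IsAlgClosed K]

/-- SOFT: for `n` invertible in `K`, `[n]` is finite etale, and the number of `n`-torsion
`K`-points is the rank of `[n]` at every point of `A`. -/
def Soft : Prop :=
  ∀ (X : AbVar K) (n : ℕ), (n : K) ≠ 0 →
    IsFinite (X.nsmulHom n) ∧ Etale (X.nsmulHom n) ∧
      ∀ a : X.A, Nat.card (X.Torsion n) = (X.nsmulHom n).finrank a

/-- DEG: for `n` invertible in `K`, if `[n]` is finite etale then its rank at some point is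
`n ^ (2 g)`. -/
def Deg : Prop :=
  ∀ (X : AbVar K) (n : ℕ), (n : K) ≠ 0 → IsFinite (X.nsmulHom n) → Etale (X.nsmulHom n) →
    ∃ a : X.A, (X.nsmulHom n).finrank a = n ^ (2 * X.dim)

end Stmt

end Fermat.Agent.S26
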